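import Fermat.Agent.S30.H683.TorsionDecomp
import Fermat.Agent.S30.Chain.FromT
import Fermat.Agent.S30.H694.TorsionRelOfNodes
import Fermat.Agent.S18.Mod.H216.NodeMod
import Fermat.Agent.S18.H438.NodeAlg

/-!
# Five inputs of the S30 skeleton, UNCONDITIONALLY (helper683)

The hypotheses `hfin hsm hgeq hunr hes` of

* `Fermat.Agent.S36.H36.result_of_inputs` (row S36, top chain of helper36),
* `Fermat.Agent.S35.H991.result_of_inputs`, `Fermat.Agent.S34.H789.result_of_inputs`,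
  `Fermat.Agent.S32.flatEigenStatement_of_inputs`,

in their EXACT shapes, from the landed rows S18 / S29 / S30 (the sixth input `hlat` is
`Fermat.Agent.S30.H42.tateLattice`, on main):

* `finInput`      (F)  : `J₀(N)[p]` is finite (ONTO `H810` + UNIQ of the Kummer package);
* `smoothInput`   (Sm) : S29 piece M3;
* `galHeckeInput` (GH) : S29 piece M2 (`H571`);
* `unramInput`, `esInput` (T) : the torsion relations of `H694.torsionRelations_of_nodes`
  (S18 nodes `H216.node_mod`, `H438.node_alg`), extended from prime `p` to EVERY `p : ℕ` by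
  primary decomposition (`torsion_induction`).
-/

set_option autoImplicit false

noncomputable section

namespace Fermat.Agent.S30.H683

open ModularCurve

/-- The torsion relations (T) at every prime, unconditionally (as in `Fermat/Agent/S30.lean`). -/
theorem torsionRelations_h683 (N : ℕ) [NeZero N] (p : ℕ) [Fact p.Prime] :
    Fermat.Agent.S30.H330.TorsionRelations N p :=
  Fermat.Agent.S30.H694.torsionRelations_of_nodes
    (fun M _ _ _ hℓM A hA => Fermat.Agent.S18.Mod.H216.node_mod M hℓM A hA)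
    (fun M => Fermat.Agent.S18.H438.node_alg M) N p

/-- (F) -/
theorem finInput : ∀ (N p : ℕ) [NeZero N], p.Prime →
    Finite {x : ModularCurve.JZero N // (p : ℤ) • x = 0} := by
  intro N p _ hp
  haveI : NeZero p := ⟨hp.ne_zero⟩
  have hF : Fermat.Agent.S30.H330.FinStatement N p :=
    Fermat.Agent.S30.H330.finStatement_of_onto
      (Fermat.Agent.S30.Chain.kumPackage N p).uniq
      (fun x hx => Fermat.Agent.S30.H810.exists_isKum_of_torsion N p hx)
  have hset : {x : ModularCurve.JZero N | (p : ℤ) • x = 0} =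
      {x : ModularCurve.JZero N | p • x = 0} := by
    ext x
    simp only [Set.mem_ofPred_eq, natCast_zsmul]
  have : ({x : ModularCurve.JZero N | (p : ℤ) • x = 0}).Finite := by
    rw [hset]
    exact hF
  exact this.to_subtype

/-- (Sm) -/
theorem smoothInput : ∀ (N p : ℕ) [NeZero N], ∀ x : ModularCurve.JZero N,
    (∃ n : ℕ, ((p : ℤ) ^ n) • x = 0) →
      ∃ L : IntermediateField ℚ (AlgebraicClosure ℚ), FiniteDimensional ℚ L ∧
        ∀ σ : AlgebraicClosure ℚ ≃ₐ[ℚ] AlgebraicClosure ℚ, (∀ y ∈ L, σ y = y) → σ • x = x :=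
  fun N _ _ x _ => Fermat.Agent.S29.jZero_smooth N x

/-- (GH) -/
theorem galHeckeInput : ∀ (N : ℕ) [NeZero N] (ℓ : Nat.Primes)
    (σ : AlgebraicClosure ℚ ≃ₐ[ℚ] AlgebraicClosure ℚ) (x : ModularCurve.JZero N),
    ModularCurve.heckeOperatorBar N ℓ (σ • x) = σ • ModularCurve.heckeOperatorBar N ℓ x :=
  fun N _ ℓ σ x => Fermat.Agent.S29.H571.heckeOperatorBar_smul N ℓ σ x

theorem not_dvd_mul_of_dvd_h683 {q N p r : ℕ} (h : ¬ q ∣ N * p) (hr : r ∣ p) : ¬ q ∣ N * r :=
  fun hd => h (hd.trans (Nat.mul_dvd_mul_left N hr))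

theorem pow_ne_zero_of_not_dvd_h683 {q N p : ℕ} (h : ¬ q ∣ N * p) (n : ℕ) : p ^ n ≠ 0 := by
  have hp : p ≠ 0 := by
    rintro rfl
    exact h (by simp)
  exact pow_ne_zero n hp

theorem intCast_pow_zsmul_h683 {J : Type*} [AddCommGroup J] (p n : ℕ) (x : J) :
    (((p ^ n : ℕ) : ℤ)) • x = ((p : ℤ) ^ n) • x := by
  push_cast
  rfl

/-- (T), inertia: for EVERY `p`. -/
theorem unramInput : ∀ (N p : ℕ) [NeZero N], ∀ q : ℕ, q.Prime → ¬ q ∣ N * p →
    ∀ A : ValuationSubring (AlgebraicClosure ℚ), A.LiesOverPrime q →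
      ∀ σ ∈ A.inertiaSubgroupIn ℚ, ∀ x : ModularCurve.JZero N,
        (∃ n : ℕ, ((p : ℤ) ^ n) • x = 0) → σ • x = x := by
  intro N p _ q hq hqNp A hA σ hσ x ⟨n, hx⟩
  have h0 : σ • (0 : ModularCurve.JZero N) = 0 := smul_zero (A := ModularCurve.JZero N) σ
  have hadd : ∀ y z : ModularCurve.JZero N, σ • (y + z) = σ • y + σ • z :=
    fun y z => smul_add σ y z
  refine torsion_induction (C := fun y : ModularCurve.JZero N => σ • y = y) h0
    (fun y z hy hz => by rw [hadd, hy, hz]) (p ^ n) (pow_ne_zero_of_not_dvd_h683 hqNp n)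
    (fun r hr hrd y ⟨k, hy⟩ => ?_) x (by rw [intCast_pow_zsmul_h683]; exact hx)
  haveI : Fact r.Prime := ⟨hr⟩
  have hrp : r ∣ p := hr.dvd_of_dvd_pow hrd
  refine ((torsionRelations_h683 N r) q hq (not_dvd_mul_of_dvd_h683 hqNp hrp) A hA).1 σ hσ y
    ⟨k, ?_⟩
  rw [← natCast_zsmul, intCast_pow_zsmul_h683]
  exact hy

/-- (T), Eichler–Shimura relation: for EVERY `p`. -/
theorem esInput : ∀ (N p : ℕ) [NeZero N], ∀ (ℓ : ℕ) (hℓ : ℓ.Prime), ¬ ℓ ∣ N * p →
    ∀ A : ValuationSubring (AlgebraicClosure ℚ), A.LiesOverPrime ℓ →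
      ∀ σ : AlgebraicClosure ℚ ≃ₐ[ℚ] AlgebraicClosure ℚ, A.IsFrobeniusAt σ ℓ →
        ∀ x : ModularCurve.JZero N, (∃ n : ℕ, ((p : ℤ) ^ n) • x = 0) →
          σ • σ • x - ModularCurve.heckeOperatorBar N ⟨ℓ, hℓ⟩ (σ • x) + (ℓ : ℤ) • x = 0 := by
  intro N p _ ℓ hℓ hℓNp A hA σ hσ x ⟨n, hx⟩
  have h0 : σ • (0 : ModularCurve.JZero N) = 0 := smul_zero (A := ModularCurve.JZero N) σ
  have hadd : ∀ y z : ModularCurve.JZero N, σ • (y + z) = σ • y + σ • z :=
    fun y z => smul_add σ y z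
  refine torsion_induction
    (C := fun y : ModularCurve.JZero N =>
      σ • σ • y - ModularCurve.heckeOperatorBar N ⟨ℓ, hℓ⟩ (σ • y) + (ℓ : ℤ) • y = 0)
    (by rw [h0, h0, map_zero, smul_zero, sub_zero, add_zero]) (fun y z hy hz => ?_) (p ^ n)
    (pow_ne_zero_of_not_dvd_h683 hℓNp n)
    (fun r hr hrd y ⟨k, hy⟩ => ?_) x (by rw [intCast_pow_zsmul_h683]; exact hx)
  · have e : σ • σ • (y + z) - ModularCurve.heckeOperatorBar N ⟨ℓ, hℓ⟩ (σ • (y + z))
        + (ℓ : ℤ) • (y + z) =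
        (σ • σ • y - ModularCurve.heckeOperatorBar N ⟨ℓ, hℓ⟩ (σ • y) + (ℓ : ℤ) • y) +
        (σ • σ • z - ModularCurve.heckeOperatorBar N ⟨ℓ, hℓ⟩ (σ • z) + (ℓ : ℤ) • z) := by
      rw [hadd, hadd, map_add, zsmul_add]
      abel
    rw [e, hy, hz, add_zero]
  · haveI : Fact r.Prime := ⟨hr⟩
    have hrp : r ∣ p := hr.dvd_of_dvd_pow hrd
    have h := ((torsionRelations_h683 N r) ℓ hℓ (not_dvd_mul_of_dvd_h683 hℓNp hrp) A hA).2 σ hσ y
      ⟨k, by rw [← natCast_zsmul, intCast_pow_zsmul_h683]; exact hy⟩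
    rw [← natCast_zsmul] at h
    exact h

end Fermat.Agent.S30.H683
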