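import Mathlib

/-!
# Primary decomposition of torsion elements, as an induction principle (helper683)

`torsion_induction`: to prove an additive property `C` for all `x` with `m • x = 0` (`m ≠ 0`), it
suffices to prove it for the elements of prime-power order `r ^ n`, `r ∣ m` prime.
-/

set_option autoImplicit false

namespace Fermat.Agent.S30.H683

theorem torsion_induction {J : Type*} [AddCommGroup J] {C : J → Prop} (h0 : C 0)
    (hadd : ∀ x y : J, C x → C y → C (x + y)) (m : ℕ) (hm : m ≠ 0)
    (hprime : ∀ r : ℕ, r.Prime → r ∣ m → ∀ x : J, (∃ n : ℕ, ((r : ℤ) ^ n) • x = 0) → C x)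
    (x : J) (hx : (m : ℤ) • x = 0) : C x := by
  induction m using Nat.recOnPosPrimePosCoprime generalizing x with
  | prime_pow p n hp hn =>
    refine hprime p hp (dvd_pow_self p hn.ne') x ⟨n, ?_⟩
    have : ((p ^ n : ℕ) : ℤ) = (p : ℤ) ^ n := by push_cast; rfl
    rw [← this]
    exact hx
  | zero => exact absurd rfl hm
  | one =>
    have : x = 0 := by simpa using hx
    rw [this]
    exact h0
  | coprime a b ha hb hab iha ihb =>
    have ha0 : a ≠ 0 := by omega
    have hb0 : b ≠ 0 := by omega
    have hcop : IsCoprime (a : ℤ) (b : ℤ) := Nat.isCoprime_iff_coprime.mpr hab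
    obtain ⟨u, v, huv⟩ := hcop
    have hx' : ((a : ℤ) * (b : ℤ)) • x = 0 := by
      have : ((a * b : ℕ) : ℤ) = (a : ℤ) * (b : ℤ) := by push_cast; rfl
      rw [← this]
      exact hx
    have hsplit : x = (v * (b : ℤ)) • x + (u * (a : ℤ)) • x := by
      rw [← add_smul, add_comm, huv, one_smul]
    have h1 : C ((v * (b : ℤ)) • x) := by
      refine iha ha0 (fun r hr hra y hy => hprime r hr (Dvd.dvd.mul_right hra b) y hy) _ ?_
      rw [smul_smul, show (a : ℤ) * (v * (b : ℤ)) = v * ((a : ℤ) * (b : ℤ)) by ring, mul_smul,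
        hx', smul_zero]
    have h2 : C ((u * (a : ℤ)) • x) := by
      refine ihb hb0 (fun r hr hrb y hy => hprime r hr (Dvd.dvd.mul_left hrb a) y hy) _ ?_
      rw [smul_smul, show (b : ℤ) * (u * (a : ℤ)) = u * ((a : ℤ) * (b : ℤ)) by ring, mul_smul,
        hx', smul_zero]
    rw [hsplit]
    exact hadd _ _ h1 h2

end Fermat.Agent.S30.H683
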